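import Fermat.Agent.RT.P.Core

/-!
# RT-P (patching), the main theorem `rtp_patch` — Mathlib only
-/

set_option autoImplicit false

namespace Fermat.Agent.RT.P

open Ideal

section Aux2

variable {S : Type*} [CommRing S] {d : ℕ}

theorem rtp_map_algebraMap_mk (A : Ideal S) (s : S) :
    (algebraMap S (Matrix (Fin d) (Fin d) S) s).map (Ideal.Quotient.mk A) =
      algebraMap S (Matrix (Fin d) (Fin d) (S ⧸ A)) s := by
  ext i j
  simp only [Matrix.map_apply, Matrix.algebraMap_matrix_apply]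
  split_ifs <;> simp

theorem rtp_map_algebraMap_factor {A B : Ideal S} (h : A ≤ B) (s : S) :
    (algebraMap S (Matrix (Fin d) (Fin d) (S ⧸ A)) s).map (Ideal.Quotient.factor h) =
      algebraMap S (Matrix (Fin d) (Fin d) (S ⧸ B)) s := by
  ext i j
  simp only [Matrix.map_apply, Matrix.algebraMap_matrix_apply]
  split_ifs <;> simp

end Aux2

section Main

variable {O : Type*} [CommRing O] {S : Type*} [CommRing S] [Algebra O S] (I 𝔞 𝔩 : Ideal S)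
  {R0 : Type*} [CommRing R0] [Algebra O R0]
  {R1 : Type*} [CommRing R1] [Algebra O R1]
  {Rχ : Type*} [CommRing Rχ] [Algebra O Rχ]
  (ι : R0 →ₐ[O] R1) {d : ℕ}
  (θ : R0 →ₐ[O] Matrix (Fin d) (Fin d) (S ⧸ 𝔞))
  (T0 : Set (Matrix (Fin d) (Fin d) (S ⧸ 𝔞)))
  (E : R1 → Rχ → Prop)

/-- `S` acts through `R` in the limit. -/
theorem rtp_scal_limit [IsAdicComplete I S] (hS : ∀ n, Finite (S ⧸ I ^ n))
    {R : Type*} [CommRing R] [Algebra O R]
    (J : Ideal R) (hJ : J ≤ Ideal.jacobson ⊥) [IsPrecomplete J R] (hR : ∀ k, Finite (R ⧸ J ^ k))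
    (ρ : R →ₐ[O] Matrix (Fin d) (Fin d) S) (s : S)
    (h : ∀ n, ∃ r, (ρ r).map (Ideal.Quotient.mk (I ^ n)) =
      algebraMap S (Matrix (Fin d) (Fin d) (S ⧸ I ^ n)) s) :
    ∃ r, ρ r = algebraMap S (Matrix (Fin d) (Fin d) S) s := by
  have hfinM : ∀ n, Finite (Matrix (Fin d) (Fin d) (S ⧸ I ^ n)) := fun n => by
    have := hS n
    exact inferInstanceAs (Finite (Fin d → Fin d → S ⧸ I ^ n))
  obtain ⟨r, hr⟩ := rtp_exists_preimage J hJ hR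
    (B := fun n => Matrix (Fin d) (Fin d) (S ⧸ I ^ n))
    (fun n => ((Ideal.Quotient.mk (I ^ n)).mapMatrix).comp (ρ : R →+* Matrix (Fin d) (Fin d) S))
    (fun n => algebraMap S (Matrix (Fin d) (Fin d) (S ⧸ I ^ n)) s)
    (by
      intro n r hr
      have h1 : (ρ r).map (Ideal.Quotient.mk (I ^ (n + 1))) =
          algebraMap S (Matrix (Fin d) (Fin d) (S ⧸ I ^ (n + 1))) s := hr
      show (ρ r).map (Ideal.Quotient.mk (I ^ n)) = _
      have hle : I ^ (n + 1) ≤ I ^ n := Ideal.pow_le_pow_right (Nat.le_succ n)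
      rw [← rtp_map_mk_factor hle, h1, rtp_map_algebraMap_factor])
    (by
      intro n
      obtain ⟨r, hr⟩ := h n
      exact ⟨r, hr⟩)
  refine ⟨r, ?_⟩
  apply rtp_matrix_ext I
  intro n
  rw [rtp_map_algebraMap_mk]
  exact hr n

/-- **The patching theorem (matrix core).** -/
theorem rtp_patch [IsAdicComplete I S] (hS : ∀ n, Finite (S ⧸ I ^ n))
    (h𝔞 : ∀ s, (∀ n, s ∈ 𝔞 ⊔ I ^ n) → s ∈ 𝔞) (h𝔩 : ∀ s, (∀ n, s ∈ 𝔩 ⊔ I ^ n) → s ∈ 𝔩)
    (hT0 : ∀ t : Matrix (Fin d) (Fin d) (S ⧸ 𝔞),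
      (∀ n, ∃ t' ∈ T0, t.map (Ideal.Quotient.factor (le_sup_left : 𝔞 ≤ 𝔞 ⊔ I ^ n)) =
        t'.map (Ideal.Quotient.factor (le_sup_left : 𝔞 ≤ 𝔞 ⊔ I ^ n))) → t ∈ T0)
    (J1 : Ideal R1) (hJ1 : J1 ≤ Ideal.jacobson ⊥) [IsPrecomplete J1 R1]
    (hR1 : ∀ k, Finite (R1 ⧸ J1 ^ k))
    (Jχ : Ideal Rχ) (hJχ : Jχ ≤ Ideal.jacobson ⊥) [IsPrecomplete Jχ Rχ]
    (hRχ : ∀ k, Finite (Rχ ⧸ Jχ ^ k))
    (hlev : ∀ n, ∃ ρ1 ρχ, RtpLevel I 𝔞 𝔩 ι θ T0 E n ρ1 ρχ) :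
    ∃ ρ1 ρχ, RtpPatched 𝔞 𝔩 ι θ T0 E ρ1 ρχ := by
  classical
  have hfinM : ∀ n, Finite (Matrix (Fin d) (Fin d) (S ⧸ I ^ n)) := fun n => by
    have := hS n
    exact inferInstanceAs (Finite (Fin d → Fin d → S ⧸ I ^ n))
  have hfin1 : ∀ n, Finite (R1 →ₐ[O] Matrix (Fin d) (Fin d) (S ⧸ I ^ n)) := fun n => by
    have := hfinM n
    exact rtp_finite_algHom J1 hJ1 hR1
  have hfinχ : ∀ n, Finite (Rχ →ₐ[O] Matrix (Fin d) (Fin d) (S ⧸ I ^ n)) := fun n => by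
    have := hfinM n
    exact rtp_finite_algHom Jχ hJχ hRχ
  -- the inverse system of the level sets
  let X : ℕ → Type _ := fun n =>
    {p : (R1 →ₐ[O] Matrix (Fin d) (Fin d) (S ⧸ I ^ n)) ×
        (Rχ →ₐ[O] Matrix (Fin d) (Fin d) (S ⧸ I ^ n)) // RtpLevel I 𝔞 𝔩 ι θ T0 E n p.1 p.2}
  have hXfin : ∀ n, Finite (X n) := fun n => by
    have := hfin1 n
    have := hfinχ n
    exact Subtype.finite
  have hXne : ∀ n, Nonempty (X n) := fun n => by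
    obtain ⟨ρ1, ρχ, h⟩ := hlev n
    exact ⟨⟨(ρ1, ρχ), h⟩⟩
  let π : ∀ {i j : ℕ}, i ≤ j → X j → X i := fun {i j} hij p =>
    ⟨(rtpRed I hij p.1.1, rtpRed I hij p.1.2), p.2.reduce hij⟩
  have π_refl : ∀ ⦃i⦄ (a : X i), π (le_refl i) a = a := by
    intro i a
    apply Subtype.ext
    exact Prod.ext (rtpRed_refl I _) (rtpRed_refl I _)
  have π_trans : ∀ ⦃i j k⦄ (hij : i ≤ j) (hjk : j ≤ k) (a : X k),
      π hij (π hjk a) = π (hij.trans hjk) a := by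
    intro i j k hij hjk a
    apply Subtype.ext
    exact Prod.ext (rtpRed_trans I hij hjk _) (rtpRed_trans I hij hjk _)
  have := hXfin 0
  obtain ⟨x, hx⟩ := exists_seq_forall_proj_of_forall_finite (α := X)
    (fun {i j} hij => π hij) π_refl π_trans (fun i a => by
      have := hXfin (i + 1)
      exact Set.toFinite _)
  -- the limits
  have hc1 : ∀ {m n : ℕ} (h : m ≤ n),
      (Ideal.Quotient.factorₐ O (Ideal.pow_le_pow_right h)).mapMatrix.comp (x n).1.1 =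
        (x m).1.1 := fun {m n} h => congrArg (fun p : X m => p.1.1) (hx h)
  have hcχ : ∀ {m n : ℕ} (h : m ≤ n),
      (Ideal.Quotient.factorₐ O (Ideal.pow_le_pow_right h)).mapMatrix.comp (x n).1.2 =
        (x m).1.2 := fun {m n} h => congrArg (fun p : X m => p.1.2) (hx h)
  obtain ⟨ρ1, hρ1⟩ := rtp_lift_algHom I (fun n => (x n).1.1) hc1
  obtain ⟨ρχ, hρχ⟩ := rtp_lift_algHom I (fun n => (x n).1.2) hcχ
  refine ⟨ρ1, ρχ, ⟨?_, ?_, ?_, ?_, ?_⟩⟩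
  · intro r0
    apply rtp_matrix_ext_closed I 𝔞 h𝔞
    intro n
    rw [rtp_map_mk_factor, ← (x n).2.base_loc r0, ← hρ1 n, rtp_map_mk_factor]
  · intro r1
    apply hT0
    intro n
    obtain ⟨t, ht, h1⟩ := (x n).2.base_T0 r1
    refine ⟨t, ht, ?_⟩
    rw [rtp_map_mk_factor, ← h1, ← hρ1 n, rtp_map_mk_factor]
  · intro r1 rχ hE
    apply rtp_matrix_ext_closed I 𝔩 h𝔩
    intro n
    rw [rtp_map_mk_factor, rtp_map_mk_factor]
    have := (x n).2.cong r1 rχ hE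
    rw [← hρ1 n, ← hρχ n, rtp_map_mk_factor, rtp_map_mk_factor] at this
    exact this
  · intro s
    apply rtp_scal_limit I hS J1 hJ1 hR1 ρ1 s
    intro n
    obtain ⟨r, hr⟩ := (x n).2.scal1 s
    exact ⟨r, by rw [hρ1 n, hr]⟩
  · intro s
    apply rtp_scal_limit I hS Jχ hJχ hRχ ρχ s
    intro n
    obtain ⟨r, hr⟩ := (x n).2.scalχ s
    exact ⟨r, by rw [hρχ n, hr]⟩

end Main

end Fermat.Agent.RT.P
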