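/-
RT-P (patching), wrappers (helper70): the hypotheses of `rtp_patch` for complete Noetherian local
rings with finite residue field, and for quotients of power series rings.

* `rtp_closed_submodule` : an `S`-submodule of `M_d(S ⧸ 𝔞)` is closed (hypothesis `hT0`);
* `rtp_patch_cnl`        : `rtp_patch` for `S`, `R1`, `Rχ` complete Noetherian local with finite
                           residue fields, `I = 𝔪_S`;
* `rtp_patch_powerSeries`: `rtp_patch` for `S = O[[σ]]` and `R1`, `Rχ` quotients of power series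
                           rings over `O` (`O` complete Noetherian local, finite residue field).
Mathlib-only.
-/
import Fermat.Agent.RT.P.Main
import Fermat.Agent.RT.K2c.Local

set_option autoImplicit false

namespace Fermat.Agent.RT.P

open Ideal IsLocalRing Fermat.Agent.RT.K2c

section Closed

variable {S : Type*} [CommRing S] {d : ℕ}

theorem rtp_mem_smul_top_of_entries (I 𝔞 : Ideal S) (n : ℕ)
    (u : Matrix (Fin d) (Fin d) (S ⧸ 𝔞))
    (hu : u.map (Ideal.Quotient.factor (le_sup_left : 𝔞 ≤ 𝔞 ⊔ I ^ n)) = 0) :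
    u ∈ (I ^ n • ⊤ : Submodule S (Matrix (Fin d) (Fin d) (S ⧸ 𝔞))) := by
  have hent : ∀ i j, ∃ b ∈ I ^ n, u i j = Ideal.Quotient.mk 𝔞 b := by
    intro i j
    have h1 : Ideal.Quotient.factor (le_sup_left : 𝔞 ≤ 𝔞 ⊔ I ^ n) (u i j) = 0 := by
      have := congrFun (congrFun hu i) j
      simpa using this
    obtain ⟨s, hs⟩ := Ideal.Quotient.mk_surjective (u i j)
    rw [← hs, Ideal.Quotient.factor_mk, Ideal.Quotient.eq_zero_iff_mem] at h1
    obtain ⟨a, ha, b, hb, rfl⟩ := Submodule.mem_sup.mp h1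
    refine ⟨b, hb, ?_⟩
    rw [← hs, map_add, Ideal.Quotient.eq_zero_iff_mem.mpr ha, zero_add]
  choose b hb hbe using hent
  rw [Matrix.matrix_eq_sum_single u]
  refine Submodule.sum_mem _ fun i _ => Submodule.sum_mem _ fun j _ => ?_
  have h2 : Matrix.single i j (u i j) = b i j • Matrix.single i j (1 : S ⧸ 𝔞) := by
    rw [Matrix.smul_single, hbe i j, Algebra.smul_def, mul_one]
    rfl
  rw [h2]
  exact Submodule.smul_mem_smul (hb i j) Submodule.mem_top

/-- An `S`-submodule of `M_d(S ⧸ 𝔞)` satisfies the closedness hypothesis `hT0` of `rtp_patch`. -/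
theorem rtp_closed_submodule [IsNoetherianRing S] (I 𝔞 : Ideal S) (hI : I ≤ Ideal.jacobson ⊥)
    (N : Submodule S (Matrix (Fin d) (Fin d) (S ⧸ 𝔞))) (t : Matrix (Fin d) (Fin d) (S ⧸ 𝔞))
    (ht : ∀ n, ∃ t' ∈ (N : Set (Matrix (Fin d) (Fin d) (S ⧸ 𝔞))),
      t.map (Ideal.Quotient.factor (le_sup_left : 𝔞 ≤ 𝔞 ⊔ I ^ n)) =
        t'.map (Ideal.Quotient.factor (le_sup_left : 𝔞 ≤ 𝔞 ⊔ I ^ n))) :
    t ∈ (N : Set (Matrix (Fin d) (Fin d) (S ⧸ 𝔞))) := by
  have hfin : Module.Finite S (Matrix (Fin d) (Fin d) (S ⧸ 𝔞)) :=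
    inferInstanceAs (Module.Finite S (Fin d → Fin d → S ⧸ 𝔞))
  refine rtk2c_closed_submodule I hI N t fun n => ?_
  obtain ⟨t', ht', h⟩ := ht n
  refine ⟨t', ht', rtp_mem_smul_top_of_entries I 𝔞 n _ ?_⟩
  ext i j
  have := congrFun (congrFun h i) j
  simp only [Matrix.map_apply, Matrix.sub_apply, Matrix.zero_apply, map_sub] at this ⊢
  rw [this, sub_self]

end Closed

section Cnl

variable {O : Type*} [CommRing O] {S : Type*} [CommRing S] [Algebra O S] (𝔞 𝔩 : Ideal S)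
  {R0 : Type*} [CommRing R0] [Algebra O R0]
  {R1 : Type*} [CommRing R1] [Algebra O R1]
  {Rχ : Type*} [CommRing Rχ] [Algebra O Rχ]
  (ι : R0 →ₐ[O] R1) {d : ℕ}
  (θ : R0 →ₐ[O] Matrix (Fin d) (Fin d) (S ⧸ 𝔞))
  (E : R1 → Rχ → Prop)

/-- **Patching for complete Noetherian local rings with finite residue fields.** -/
theorem rtp_patch_cnl [IsNoetherianRing S] [IsLocalRing S] [IsAdicComplete (maximalIdeal S) S]
    [Finite (ResidueField S)]
    [IsNoetherianRing R1] [IsLocalRing R1] [IsPrecomplete (maximalIdeal R1) R1]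
    [Finite (ResidueField R1)]
    [IsNoetherianRing Rχ] [IsLocalRing Rχ] [IsPrecomplete (maximalIdeal Rχ) Rχ]
    [Finite (ResidueField Rχ)]
    (N : Submodule S (Matrix (Fin d) (Fin d) (S ⧸ 𝔞)))
    (hlev : ∀ n, ∃ ρ1 ρχ, RtpLevel (maximalIdeal S) 𝔞 𝔩 ι θ
      (N : Set (Matrix (Fin d) (Fin d) (S ⧸ 𝔞))) E n ρ1 ρχ) :
    ∃ ρ1 ρχ, RtpPatched 𝔞 𝔩 ι θ (N : Set (Matrix (Fin d) (Fin d) (S ⧸ 𝔞))) E ρ1 ρχ :=
  rtp_patch (maximalIdeal S) 𝔞 𝔩 ι θ _ E (fun n => rtk2c_finite_quotient_pow n)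
    (rtk2c_closed 𝔞) (rtk2c_closed 𝔩)
    (rtp_closed_submodule (maximalIdeal S) 𝔞 (maximalIdeal_le_jacobson ⊥) N)
    (maximalIdeal R1) (maximalIdeal_le_jacobson ⊥) (fun k => rtk2c_finite_quotient_pow k)
    (maximalIdeal Rχ) (maximalIdeal_le_jacobson ⊥) (fun k => rtk2c_finite_quotient_pow k)
    hlev

end Cnl

section PowerSeries

variable {O : Type*} [CommRing O] [IsLocalRing O] [IsNoetherianRing O]
  [IsAdicComplete (maximalIdeal O) O] [Finite (ResidueField O)]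
  {σ τ1 τχ : Type*} [Finite σ] [Finite τ1] [Finite τχ]
  (𝔞 𝔩 : Ideal (MvPowerSeries σ O))
  {R0 : Type*} [CommRing R0] [Algebra O R0]
  {R1 : Type*} [CommRing R1] [Algebra O R1] [Nontrivial R1]
  {Rχ : Type*} [CommRing Rχ] [Algebra O Rχ] [Nontrivial Rχ]
  (ι : R0 →ₐ[O] R1) {d : ℕ}
  (θ : R0 →ₐ[O] Matrix (Fin d) (Fin d) (MvPowerSeries σ O ⧸ 𝔞))
  (E : R1 → Rχ → Prop)

/-- **Patching for quotients of power series rings**: `S = O[[σ]]`, `R1` and `Rχ` quotients of
power series rings over `O`, where `O` is a complete Noetherian local ring with finite residue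
field; `T0 = N` is an `S`-submodule of `M_d(S ⧸ 𝔞)`. -/
theorem rtp_patch_powerSeries
    (f1 : MvPowerSeries τ1 O →+* R1) (hf1 : Function.Surjective f1)
    (fχ : MvPowerSeries τχ O →+* Rχ) (hfχ : Function.Surjective fχ)
    (N : Submodule (MvPowerSeries σ O) (Matrix (Fin d) (Fin d) (MvPowerSeries σ O ⧸ 𝔞)))
    (hlev : ∀ n, ∃ ρ1 ρχ, RtpLevel (maximalIdeal (MvPowerSeries σ O)) 𝔞 𝔩 ι θ
      (N : Set (Matrix (Fin d) (Fin d) (MvPowerSeries σ O ⧸ 𝔞))) E n ρ1 ρχ) :
    ∃ ρ1 ρχ, RtpPatched 𝔞 𝔩 ι θ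
      (N : Set (Matrix (Fin d) (Fin d) (MvPowerSeries σ O ⧸ 𝔞))) E ρ1 ρχ := by
  have hS : IsAdicComplete (maximalIdeal (MvPowerSeries σ O)) (MvPowerSeries σ O) :=
    rtk2c_isAdicComplete
  have hSf : Finite (ResidueField (MvPowerSeries σ O)) := rtk2c_finite_residueField
  have hP1 : IsAdicComplete (maximalIdeal (MvPowerSeries τ1 O)) (MvPowerSeries τ1 O) :=
    rtk2c_isAdicComplete
  have hP1f : Finite (ResidueField (MvPowerSeries τ1 O)) := rtk2c_finite_residueField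
  have hPχ : IsAdicComplete (maximalIdeal (MvPowerSeries τχ O)) (MvPowerSeries τχ O) :=
    rtk2c_isAdicComplete
  have hPχf : Finite (ResidueField (MvPowerSeries τχ O)) := rtk2c_finite_residueField
  have hR1l : IsLocalRing R1 := IsLocalRing.of_surjective' f1 hf1
  have hRχl : IsLocalRing Rχ := IsLocalRing.of_surjective' fχ hfχ
  have hR1n : IsNoetherianRing R1 := isNoetherianRing_of_surjective _ R1 f1 hf1
  have hRχn : IsNoetherianRing Rχ := isNoetherianRing_of_surjective _ Rχ fχ hfχ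
  have hR1c : IsAdicComplete (maximalIdeal R1) R1 := rtk2c_isAdicComplete_of_surjective f1 hf1
  have hRχc : IsAdicComplete (maximalIdeal Rχ) Rχ := rtk2c_isAdicComplete_of_surjective fχ hfχ
  have hR1f : Finite (ResidueField R1) := rtk2c_finite_residueField_of_surjective f1 hf1
  have hRχf : Finite (ResidueField Rχ) := rtk2c_finite_residueField_of_surjective fχ hfχ
  exact rtp_patch_cnl 𝔞 𝔩 ι θ E N hlev

end PowerSeries

end Fermat.Agent.RT.P
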