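import Mathlib

/-!
# RT-P (patching), basic lemmas — Mathlib only

* `rtp_pow_card_le_ker` : a ring hom from a commutative ring `R` to a finite ring `E` kills
  `J ^ (Nat.card E)` for every ideal `J` inside the Jacobson radical.
* `rtp_finite_algHom` : finitely many `O`-algebra homs from `R` to a finite `O`-algebra, when all
  `R ⧸ J ^ k` are finite.
-/

set_option autoImplicit false

namespace Fermat.Agent.RT.P

open Ideal

section Pigeonhole

variable {R : Type*} [CommRing R] {E : Type*} [Ring E]

/-- A product of a nonempty list of elements of an ideal lies in the ideal. -/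
theorem rtp_list_prod_mem (J : Ideal R) :
    ∀ (l : List R), l ≠ [] → (∀ x ∈ l, x ∈ J) → l.prod ∈ J
  | [], h, _ => absurd rfl h
  | (a :: l), _, hl => by
      rw [List.prod_cons]
      exact J.mul_mem_right _ (hl a (List.mem_cons_self))

/-- The pigeonhole step: a product of `Nat.card E` elements of the Jacobson radical is killed
by every ring hom to the finite ring `E`. -/
theorem rtp_map_list_prod_eq_zero [Finite E] (J : Ideal R) (hJ : J ≤ Ideal.jacobson ⊥)
    (f : R →+* E) (l : List R) (hl : ∀ x ∈ l, x ∈ J) (hlen : Nat.card E ≤ l.length) :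
    f l.prod = 0 := by
  classical
  have : Fintype E := Fintype.ofFinite E
  -- partial products
  let P : Fin (l.length + 1) → E := fun j => f (l.take j).prod
  have hcard : Fintype.card E < Fintype.card (Fin (l.length + 1)) := by
    rw [Fintype.card_fin, ← Nat.card_eq_fintype_card]
    omega
  obtain ⟨i, j, hij, hP⟩ := Fintype.exists_ne_map_eq_of_card_lt P hcard
  -- wlog i < j
  wlog hlt : i < j generalizing i j
  · exact this j i hij.symm hP.symm (lt_of_le_of_ne (not_lt.mp hlt) hij.symm)
  have hi : (i : ℕ) < j := hlt
  have hj : (j : ℕ) ≤ l.length := Nat.lt_succ_iff.mp j.2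
  -- the middle block
  set u : R := ((l.drop i).take (j - i)).prod with hu
  have hsplit : (l.take j).prod = (l.take i).prod * u := by
    have : l.take j = l.take i ++ (l.drop i).take (j - i) := by
      have h1 : (j : ℕ) = i + (j - i) := by omega
      conv_lhs => rw [h1]
      rw [List.take_add]
    rw [this, List.prod_append]
  have huJ : u ∈ J := by
    apply rtp_list_prod_mem
    · intro h
      have hlen' : ((l.drop i).take (j - i)).length = j - i := by
        rw [List.length_take, List.length_drop]
        omega
      rw [h] at hlen'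
      simp at hlen'
      omega
    · intro x hx
      exact hl x (List.mem_of_mem_drop (List.mem_of_mem_take hx))
  -- 1 - u is a unit
  have hunit : IsUnit (1 - u) := by
    have h := (Ideal.mem_jacobson_bot.mp (hJ (J.neg_mem huJ))) 1
    have : -u * 1 + 1 = 1 - u := by ring
    rwa [this] at h
  have hPi : f (l.take i).prod = 0 := by
    have h1 : f (l.take i).prod * f (1 - u) = 0 := by
      have : P i = P j := hP
      simp only [P] at this
      rw [hsplit, map_mul] at this
      rw [map_sub, map_one, mul_sub, mul_one, ← this, sub_self]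
    have h2 : IsUnit (f (1 - u)) := hunit.map f
    exact (h2.mul_left_eq_zero).mp h1
  have : l.prod = (l.take i).prod * (l.drop i).prod := by
    rw [← List.prod_append, List.take_append_drop]
  rw [this, map_mul, hPi, zero_mul]

/-- A ring hom from a commutative ring to a finite ring `E` kills `J ^ (Nat.card E)` for every
ideal `J` contained in the Jacobson radical. -/
theorem rtp_pow_card_le_ker [Finite E] (J : Ideal R) (hJ : J ≤ Ideal.jacobson ⊥)
    (f : R →+* E) : J ^ (Nat.card E) ≤ RingHom.ker f := by
  rw [Submodule.pow_eq_span_pow_set, Submodule.span_le]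
  intro x hx
  rw [Set.mem_pow] at hx
  obtain ⟨g, rfl⟩ := hx
  rw [SetLike.mem_coe, RingHom.mem_ker]
  apply rtp_map_list_prod_eq_zero J hJ f
  · intro x hx
    rw [List.mem_ofFn] at hx
    obtain ⟨i, rfl⟩ := hx
    exact (g i).2
  · simp

end Pigeonhole

section FiniteHoms

variable {O : Type*} [CommRing O] {R : Type*} [CommRing R] [Algebra O R]
  {E : Type*} [Ring E] [Algebra O E]

/-- Finitely many algebra homs from `R` into a finite algebra, if all `R ⧸ J ^ k` are finite and
`J` lies in the Jacobson radical. -/
theorem rtp_finite_algHom [Finite E] (J : Ideal R) (hJ : J ≤ Ideal.jacobson ⊥)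
    (hfin : ∀ k, Finite (R ⧸ J ^ k)) : Finite (R →ₐ[O] E) := by
  have := hfin (Nat.card E)
  let F : (R →ₐ[O] E) → ((R ⧸ J ^ (Nat.card E)) → E) := fun f c => f (Quotient.out c)
  refine Finite.of_injective F ?_
  intro f g hfg
  ext r
  have h1 : ∀ (h : R →ₐ[O] E), h r = h (Quotient.out (Ideal.Quotient.mk (J ^ (Nat.card E)) r)) := by
    intro h
    have hmem : r - Quotient.out (Ideal.Quotient.mk (J ^ (Nat.card E)) r) ∈ J ^ (Nat.card E) := by
      rw [← Ideal.Quotient.eq]
      exact (Ideal.Quotient.mk_out _).symm
    have := rtp_pow_card_le_ker J hJ (h : R →+* E) hmem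
    rw [RingHom.mem_ker, map_sub, sub_eq_zero] at this
    exact this
  rw [h1 f, h1 g]
  exact congrFun hfg _

end FiniteHoms

end Fermat.Agent.RT.P
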