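import Mathlib

/-!
# RT-P (patching), limits along `I`-adic towers — Mathlib only

* `rtp_exists_limit`        : a compatible family in `∏ R ⧸ J ^ k` comes from an element of `R`
                               (`R` precomplete);
* `rtp_matrix_ext`          : matrices over a Hausdorff ring are determined by their reductions;
* `rtp_matrix_exists_limit` : compatible families of matrices have a limit;
* `rtp_lift_algHom`         : a compatible family of algebra homs `A →ₐ[O] M_d(S ⧸ I ^ n)` lifts
                               to `A →ₐ[O] M_d(S)` (`S` complete).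
-/

set_option autoImplicit false

namespace Fermat.Agent.RT.P

open Ideal

section Limit

variable {R : Type*} [CommRing R] (J : Ideal R)

theorem rtp_exists_limit [IsPrecomplete J R] (c : ∀ k, R ⧸ J ^ k)
    (hc : ∀ {m n : ℕ} (h : m ≤ n),
      Ideal.Quotient.factor (Ideal.pow_le_pow_right h) (c n) = c m) :
    ∃ r : R, ∀ k, Ideal.Quotient.mk (J ^ k) r = c k := by
  have hout : ∀ k, Ideal.Quotient.mk (J ^ k) (Quotient.out (c k)) = c k :=
    fun k => Ideal.Quotient.mk_out _
  have hcauchy : ∀ {m n : ℕ}, m ≤ n →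
      (Quotient.out (c m) : R) ≡ Quotient.out (c n) [SMOD (J ^ m • ⊤ : Submodule R R)] := by
    intro m n h
    rw [SModEq.sub_mem, smul_eq_mul, Ideal.mul_top, ← Ideal.Quotient.eq, hout m]
    have := hc h
    rw [← hout n, Ideal.Quotient.factor_mk] at this
    exact this.symm
  obtain ⟨L, hL⟩ := IsPrecomplete.prec ‹_› hcauchy
  refine ⟨L, fun k => ?_⟩
  have := hL k
  rw [SModEq.sub_mem, smul_eq_mul, Ideal.mul_top, ← Ideal.Quotient.eq, hout k] at this
  exact this.symm

theorem rtp_eq_of_forall_mk_eq [IsHausdorff J R] {x y : R}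
    (h : ∀ k, Ideal.Quotient.mk (J ^ k) x = Ideal.Quotient.mk (J ^ k) y) : x = y := by
  rw [← sub_eq_zero]
  apply IsHausdorff.haus ‹_›
  intro n
  rw [SModEq.sub_mem, smul_eq_mul, Ideal.mul_top, sub_zero, ← Ideal.Quotient.eq]
  exact h n

end Limit

section Matrix

variable {S : Type*} [CommRing S] (I : Ideal S) {d : ℕ}

theorem rtp_matrix_ext [IsHausdorff I S] {A B : Matrix (Fin d) (Fin d) S}
    (h : ∀ n, A.map (Ideal.Quotient.mk (I ^ n)) = B.map (Ideal.Quotient.mk (I ^ n))) :
    A = B := by
  ext i j
  apply rtp_eq_of_forall_mk_eq I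
  intro k
  have := congrFun (congrFun (h k) i) j
  simpa using this

theorem rtp_matrix_exists_limit [IsPrecomplete I S]
    (c : ∀ n, Matrix (Fin d) (Fin d) (S ⧸ I ^ n))
    (hc : ∀ {m n : ℕ} (h : m ≤ n),
      (c n).map (Ideal.Quotient.factor (Ideal.pow_le_pow_right h)) = c m) :
    ∃ A : Matrix (Fin d) (Fin d) S, ∀ n, A.map (Ideal.Quotient.mk (I ^ n)) = c n := by
  have key : ∀ i j, ∃ s : S, ∀ k, Ideal.Quotient.mk (I ^ k) s = c k i j := by
    intro i j
    apply rtp_exists_limit I (fun k => c k i j)
    intro m n h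
    have := congrFun (congrFun (hc h) i) j
    simpa using this
  choose s hs using key
  refine ⟨Matrix.of s, fun n => ?_⟩
  ext i j
  simp [hs]

end Matrix

section Lift

variable {O : Type*} [CommRing O] {S : Type*} [CommRing S] [Algebra O S] (I : Ideal S)
  {A : Type*} [Semiring A] [Algebra O A] {d : ℕ}

/-- A compatible family of algebra homs to the matrix rings over `S ⧸ I ^ n` lifts to the matrix
ring over `S`, when `S` is `I`-adically complete. -/
theorem rtp_lift_algHom [IsAdicComplete I S]
    (ρ : ∀ n, A →ₐ[O] Matrix (Fin d) (Fin d) (S ⧸ I ^ n))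
    (hρ : ∀ {m n : ℕ} (h : m ≤ n),
      (Ideal.Quotient.factorₐ O (Ideal.pow_le_pow_right h)).mapMatrix.comp (ρ n) = ρ m) :
    ∃ ρ' : A →ₐ[O] Matrix (Fin d) (Fin d) S,
      ∀ n a, (ρ' a).map (Ideal.Quotient.mk (I ^ n)) = ρ n a := by
  have key : ∀ a : A, ∃ M : Matrix (Fin d) (Fin d) S,
      ∀ n, M.map (Ideal.Quotient.mk (I ^ n)) = ρ n a := by
    intro a
    apply rtp_matrix_exists_limit I (fun n => ρ n a)
    intro m n h
    have := DFunLike.congr_fun (hρ h) a
    exact this
  choose F hF using key
  have hmap : ∀ n (M : Matrix (Fin d) (Fin d) S),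
      M.map (Ideal.Quotient.mk (I ^ n)) = (Ideal.Quotient.mk (I ^ n)).mapMatrix M := fun _ _ => rfl
  refine ⟨{ toFun := F
            map_one' := ?_
            map_mul' := ?_
            map_zero' := ?_
            map_add' := ?_
            commutes' := ?_ }, fun n a => hF a n⟩
  · apply rtp_matrix_ext I
    intro n
    rw [hF, map_one, hmap, map_one]
  · intro a b
    apply rtp_matrix_ext I
    intro n
    rw [hF, map_mul, hmap, map_mul, ← hmap, ← hmap, hF, hF]
  · apply rtp_matrix_ext I
    intro n
    rw [hF, map_zero, hmap, map_zero]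
  · intro a b
    apply rtp_matrix_ext I
    intro n
    rw [hF, map_add, hmap, map_add, ← hmap, ← hmap, hF, hF]
  · intro r
    apply rtp_matrix_ext I
    intro n
    rw [hF, AlgHom.commutes]
    have : (algebraMap O (Matrix (Fin d) (Fin d) S) r).map (Ideal.Quotient.mk (I ^ n)) =
        (Ideal.Quotient.mkₐ O (I ^ n)).mapMatrix (algebraMap O (Matrix (Fin d) (Fin d) S) r) := rfl
    rw [this, AlgHom.commutes]

end Lift

end Fermat.Agent.RT.P
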