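import Fermat.Agent.RT.P.Basic
import Fermat.Agent.RT.P.Limit

/-!
# RT-P (patching), the compactness lemma — Mathlib only

`rtp_exists_preimage`: `R` a commutative ring, `J` an ideal in the Jacobson radical, `R` `J`-adically
precomplete with finite quotients `R ⧸ J ^ k`; `f n : R →+* B n` ring homs to finite rings and
targets `b n : B n` such that the solution sets `{r | f n r = b n}` are nonempty and decreasing.
Then there is a common solution.
-/

set_option autoImplicit false

namespace Fermat.Agent.RT.P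

open Ideal

theorem rtp_exists_preimage
    {R : Type*} [CommRing R] (J : Ideal R) (hJ : J ≤ Ideal.jacobson ⊥) [IsPrecomplete J R]
    (hfin : ∀ k, Finite (R ⧸ J ^ k))
    {B : ℕ → Type*} [∀ n, Ring (B n)] [∀ n, Finite (B n)]
    (f : ∀ n, R →+* B n) (b : ∀ n, B n)
    (hmono : ∀ n r, f (n + 1) r = b (n + 1) → f n r = b n)
    (h : ∀ n, ∃ r, f n r = b n) :
    ∃ r, ∀ n, f n r = b n := by
  classical
  have hmono' : ∀ {m n : ℕ}, m ≤ n → ∀ r, f n r = b n → f m r = b m := by
    intro m n hmn
    induction n, hmn using Nat.le_induction with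
    | base => exact fun r hr => hr
    | succ n _ ih => exact fun r hr => ih r (hmono n r hr)
  -- the sets `Y k`
  let Y : ∀ k, Set (R ⧸ J ^ k) :=
    fun k => {c | ∀ n, ∃ r, f n r = b n ∧ Ideal.Quotient.mk (J ^ k) r = c}
  have hYne : ∀ k, Nonempty (Y k) := by
    intro k
    have := hfin k
    choose r hr using h
    obtain ⟨c, hc⟩ := Finite.exists_infinite_fiber (fun n => Ideal.Quotient.mk (J ^ k) (r n))
    refine ⟨⟨c, fun n => ?_⟩⟩
    have hinf : (((fun n => Ideal.Quotient.mk (J ^ k) (r n)) ⁻¹' {c}) : Set ℕ).Infinite :=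
      Set.infinite_coe_iff.mp hc
    obtain ⟨j, hj, hnj⟩ := hinf.exists_gt n
    exact ⟨r j, hmono' hnj.le _ (hr j), hj⟩
  have hYfin : ∀ k, Finite (Y k) := fun k => by
    have := hfin k
    infer_instance
  -- projections
  let π : ∀ {i j : ℕ}, i ≤ j → Y j → Y i := fun {i j} hij c =>
    ⟨Ideal.Quotient.factor (Ideal.pow_le_pow_right hij) c.1, fun n => by
      obtain ⟨r, hr1, hr2⟩ := c.2 n
      exact ⟨r, hr1, by rw [← hr2, Ideal.Quotient.factor_mk]⟩⟩
  have π_refl : ∀ ⦃i⦄ (a : Y i), π (le_refl i) a = a := by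
    intro i a
    apply Subtype.ext
    obtain ⟨r, hr⟩ := Ideal.Quotient.mk_surjective a.1
    show Ideal.Quotient.factor _ a.1 = a.1
    rw [← hr, Ideal.Quotient.factor_mk]
  have π_trans : ∀ ⦃i j k⦄ (hij : i ≤ j) (hjk : j ≤ k) (a : Y k),
      π hij (π hjk a) = π (hij.trans hjk) a := by
    intro i j k hij hjk a
    apply Subtype.ext
    obtain ⟨r, hr⟩ := Ideal.Quotient.mk_surjective a.1
    show Ideal.Quotient.factor _ (Ideal.Quotient.factor _ a.1) = Ideal.Quotient.factor _ a.1
    rw [← hr, Ideal.Quotient.factor_mk, Ideal.Quotient.factor_mk, Ideal.Quotient.factor_mk]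
  have := hYfin 0
  obtain ⟨c, hc⟩ := exists_seq_forall_proj_of_forall_finite (α := fun k => Y k)
    (fun {i j} hij => π hij) π_refl π_trans (fun i a => by
      have := hYfin (i + 1)
      exact Set.toFinite _)
  -- the limit
  obtain ⟨r, hr⟩ := rtp_exists_limit J (fun k => (c k).1) (by
    intro m n hmn
    exact congrArg Subtype.val (hc hmn))
  refine ⟨r, fun n => ?_⟩
  obtain ⟨r', hr'1, hr'2⟩ := (c (Nat.card (B n))).2 n
  have hmem : r - r' ∈ J ^ (Nat.card (B n)) := by
    rw [← Ideal.Quotient.eq, hr'2, hr]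
  have := rtp_pow_card_le_ker J hJ (f n) hmem
  rw [RingHom.mem_ker, map_sub, sub_eq_zero] at this
  rw [this, hr'1]

end Fermat.Agent.RT.P
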