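import Fermat.Agent.RT.P.Compact

/-!
# RT-P (patching), the MATRIX CORE — Mathlib only

The Taylor–Wiles–Kisin patching argument in the form ruled by the captain of the K-machine
(helper43, 20:58Z).  All modules are free of rank `d` over (quotients of) `S`, so they are given
in a basis: an action of a ring `R` on such a module is an algebra hom `R →ₐ[O] M_d(S ⧸ I ^ n)`.

* `RtpLevel`   : the conditions on a pair `(ρ1, ρχ)` at level `n` (everything modulo `I ^ n`);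
* `RtpPatched` : the same conditions for a pair `(ρ1, ρχ)` with values in `M_d(S)`;
* `rtp_patch`  : if every level is inhabited, there is a patched pair.

No pigeonhole on the Taylor–Wiles sets is left to the consumer: the level `n` datum may come from
any auxiliary level `m ≥ n`.
-/

set_option autoImplicit false

namespace Fermat.Agent.RT.P

open Ideal

section Defs

variable {O : Type*} [CommRing O] {S : Type*} [CommRing S] [Algebra O S] (I 𝔞 𝔩 : Ideal S)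
  {R0 : Type*} [CommRing R0] [Algebra O R0]
  {R1 : Type*} [CommRing R1] [Algebra O R1]
  {Rχ : Type*} [CommRing Rχ] [Algebra O Rχ]
  (ι : R0 →ₐ[O] R1) {d : ℕ}
  (θ : R0 →ₐ[O] Matrix (Fin d) (Fin d) (S ⧸ 𝔞))
  (T0 : Set (Matrix (Fin d) (Fin d) (S ⧸ 𝔞)))
  (E : R1 → Rχ → Prop)

/-- The conditions at level `n`:
* `base_loc` : on the local ring `R0` the action on the base `S ⧸ 𝔞` is the fixed `θ`;
* `base_T0`  : the action on the base is through `T0`;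
* `cong`     : the two types agree modulo `𝔩` on `E`-related elements;
* `scal1`, `scalχ` : `S` acts through `R1`, resp. `Rχ`. -/
structure RtpLevel (n : ℕ) (ρ1 : R1 →ₐ[O] Matrix (Fin d) (Fin d) (S ⧸ I ^ n))
    (ρχ : Rχ →ₐ[O] Matrix (Fin d) (Fin d) (S ⧸ I ^ n)) : Prop where
  base_loc : ∀ r0 : R0,
    (ρ1 (ι r0)).map (Ideal.Quotient.factor (le_sup_right : I ^ n ≤ 𝔞 ⊔ I ^ n)) =
      (θ r0).map (Ideal.Quotient.factor (le_sup_left : 𝔞 ≤ 𝔞 ⊔ I ^ n))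
  base_T0 : ∀ r1 : R1, ∃ t ∈ T0,
    (ρ1 r1).map (Ideal.Quotient.factor (le_sup_right : I ^ n ≤ 𝔞 ⊔ I ^ n)) =
      t.map (Ideal.Quotient.factor (le_sup_left : 𝔞 ≤ 𝔞 ⊔ I ^ n))
  cong : ∀ r1 rχ, E r1 rχ →
    (ρ1 r1).map (Ideal.Quotient.factor (le_sup_right : I ^ n ≤ 𝔩 ⊔ I ^ n)) =
      (ρχ rχ).map (Ideal.Quotient.factor (le_sup_right : I ^ n ≤ 𝔩 ⊔ I ^ n))
  scal1 : ∀ s : S, ∃ r, ρ1 r = algebraMap S (Matrix (Fin d) (Fin d) (S ⧸ I ^ n)) s
  scalχ : ∀ s : S, ∃ r, ρχ r = algebraMap S (Matrix (Fin d) (Fin d) (S ⧸ I ^ n)) s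

/-- The conditions on the patched pair. -/
structure RtpPatched (ρ1 : R1 →ₐ[O] Matrix (Fin d) (Fin d) S)
    (ρχ : Rχ →ₐ[O] Matrix (Fin d) (Fin d) S) : Prop where
  base_loc : ∀ r0 : R0, (ρ1 (ι r0)).map (Ideal.Quotient.mk 𝔞) = θ r0
  base_T0 : ∀ r1 : R1, (ρ1 r1).map (Ideal.Quotient.mk 𝔞) ∈ T0
  cong : ∀ r1 rχ, E r1 rχ →
    (ρ1 r1).map (Ideal.Quotient.mk 𝔩) = (ρχ rχ).map (Ideal.Quotient.mk 𝔩)
  scal1 : ∀ s : S, ∃ r, ρ1 r = algebraMap S (Matrix (Fin d) (Fin d) S) s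
  scalχ : ∀ s : S, ∃ r, ρχ r = algebraMap S (Matrix (Fin d) (Fin d) S) s

end Defs

section Aux

variable {S : Type*} [CommRing S] {d : ℕ}

/-- `Matrix.map` along `factor` after `Matrix.map` along `factor`. -/
theorem rtp_map_factor_factor {A B C : Ideal S} (h1 : A ≤ B) (h2 : B ≤ C)
    (M : Matrix (Fin d) (Fin d) (S ⧸ A)) :
    (M.map (Ideal.Quotient.factor h1)).map (Ideal.Quotient.factor h2) =
      M.map (Ideal.Quotient.factor (h1.trans h2)) := by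
  ext i j
  simp only [Matrix.map_apply]
  obtain ⟨s, hs⟩ := Ideal.Quotient.mk_surjective (M i j)
  rw [← hs, Ideal.Quotient.factor_mk, Ideal.Quotient.factor_mk, Ideal.Quotient.factor_mk]

/-- `Matrix.map` along `factor` after `Matrix.map` along `mk`. -/
theorem rtp_map_mk_factor {A B : Ideal S} (h1 : A ≤ B) (M : Matrix (Fin d) (Fin d) S) :
    (M.map (Ideal.Quotient.mk A)).map (Ideal.Quotient.factor h1) =
      M.map (Ideal.Quotient.mk B) := by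
  ext i j
  simp only [Matrix.map_apply, Ideal.Quotient.factor_mk]

/-- a closed ideal: elements of `S ⧸ 𝔞` are separated by the quotients `S ⧸ (𝔞 ⊔ I ^ n)` -/
theorem rtp_matrix_ext_closed (I 𝔞 : Ideal S) (h𝔞 : ∀ s, (∀ n, s ∈ 𝔞 ⊔ I ^ n) → s ∈ 𝔞)
    {M N : Matrix (Fin d) (Fin d) (S ⧸ 𝔞)}
    (h : ∀ n, M.map (Ideal.Quotient.factor (le_sup_left : 𝔞 ≤ 𝔞 ⊔ I ^ n)) =
      N.map (Ideal.Quotient.factor (le_sup_left : 𝔞 ≤ 𝔞 ⊔ I ^ n))) : M = N := by
  ext i j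
  obtain ⟨s, hs⟩ := Ideal.Quotient.mk_surjective (M i j)
  obtain ⟨t, ht⟩ := Ideal.Quotient.mk_surjective (N i j)
  rw [← hs, ← ht, Ideal.Quotient.eq]
  apply h𝔞
  intro n
  have := congrFun (congrFun (h n) i) j
  simp only [Matrix.map_apply] at this
  rw [← hs, ← ht, Ideal.Quotient.factor_mk, Ideal.Quotient.factor_mk, Ideal.Quotient.eq] at this
  exact this

end Aux

section Reduce

variable {O : Type*} [CommRing O] {S : Type*} [CommRing S] [Algebra O S] (I 𝔞 𝔩 : Ideal S)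
  {R0 : Type*} [CommRing R0] [Algebra O R0]
  {R1 : Type*} [CommRing R1] [Algebra O R1]
  {Rχ : Type*} [CommRing Rχ] [Algebra O Rχ]
  (ι : R0 →ₐ[O] R1) {d : ℕ}
  (θ : R0 →ₐ[O] Matrix (Fin d) (Fin d) (S ⧸ 𝔞))
  (T0 : Set (Matrix (Fin d) (Fin d) (S ⧸ 𝔞)))
  (E : R1 → Rχ → Prop)

/-- reduction of algebra homs from level `n` to level `m ≤ n` -/
noncomputable def rtpRed {A : Type*} [Semiring A] [Algebra O A] {m n : ℕ} (h : m ≤ n)
    (ρ : A →ₐ[O] Matrix (Fin d) (Fin d) (S ⧸ I ^ n)) :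
    A →ₐ[O] Matrix (Fin d) (Fin d) (S ⧸ I ^ m) :=
  (Ideal.Quotient.factorₐ O (Ideal.pow_le_pow_right h)).mapMatrix.comp ρ

theorem rtpRed_apply {A : Type*} [Semiring A] [Algebra O A] {m n : ℕ} (h : m ≤ n)
    (ρ : A →ₐ[O] Matrix (Fin d) (Fin d) (S ⧸ I ^ n)) (a : A) :
    rtpRed I h ρ a = (ρ a).map (Ideal.Quotient.factor (Ideal.pow_le_pow_right h)) := rfl

theorem rtpRed_refl {A : Type*} [Semiring A] [Algebra O A] {n : ℕ}
    (ρ : A →ₐ[O] Matrix (Fin d) (Fin d) (S ⧸ I ^ n)) : rtpRed I (le_refl n) ρ = ρ := by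
  ext a i j
  rw [rtpRed_apply, Matrix.map_apply]
  obtain ⟨s, hs⟩ := Ideal.Quotient.mk_surjective (ρ a i j)
  rw [← hs, Ideal.Quotient.factor_mk]

theorem rtpRed_trans {A : Type*} [Semiring A] [Algebra O A] {k m n : ℕ} (h1 : k ≤ m)
    (h2 : m ≤ n) (ρ : A →ₐ[O] Matrix (Fin d) (Fin d) (S ⧸ I ^ n)) :
    rtpRed I h1 (rtpRed I h2 ρ) = rtpRed I (h1.trans h2) ρ := by
  ext a i j
  rw [rtpRed_apply, rtpRed_apply, rtpRed_apply, rtp_map_factor_factor]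

variable {I 𝔞 𝔩 ι θ T0 E}

theorem RtpLevel.reduce {m n : ℕ} (h : m ≤ n)
    {ρ1 : R1 →ₐ[O] Matrix (Fin d) (Fin d) (S ⧸ I ^ n)}
    {ρχ : Rχ →ₐ[O] Matrix (Fin d) (Fin d) (S ⧸ I ^ n)}
    (H : RtpLevel I 𝔞 𝔩 ι θ T0 E n ρ1 ρχ) :
    RtpLevel I 𝔞 𝔩 ι θ T0 E m (rtpRed I h ρ1) (rtpRed I h ρχ) := by
  have hpow : I ^ n ≤ I ^ m := Ideal.pow_le_pow_right h
  have h𝔞 : 𝔞 ⊔ I ^ n ≤ 𝔞 ⊔ I ^ m := sup_le_sup_left hpow 𝔞
  have h𝔩 : 𝔩 ⊔ I ^ n ≤ 𝔩 ⊔ I ^ m := sup_le_sup_left hpow 𝔩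
  refine ⟨?_, ?_, ?_, ?_, ?_⟩
  · intro r0
    have := congrArg (fun M => M.map (Ideal.Quotient.factor h𝔞)) (H.base_loc r0)
    simp only [rtp_map_factor_factor] at this
    rw [rtpRed_apply, rtp_map_factor_factor]
    exact this
  · intro r1
    obtain ⟨t, ht, h1⟩ := H.base_T0 r1
    refine ⟨t, ht, ?_⟩
    have := congrArg (fun M => M.map (Ideal.Quotient.factor h𝔞)) h1
    simp only [rtp_map_factor_factor] at this
    rw [rtpRed_apply, rtp_map_factor_factor]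
    exact this
  · intro r1 rχ hE
    have := congrArg (fun M => M.map (Ideal.Quotient.factor h𝔩)) (H.cong r1 rχ hE)
    simp only [rtp_map_factor_factor] at this
    rw [rtpRed_apply, rtpRed_apply, rtp_map_factor_factor, rtp_map_factor_factor]
    exact this
  · intro s
    obtain ⟨r, hr⟩ := H.scal1 s
    refine ⟨r, ?_⟩
    rw [rtpRed_apply, hr]
    ext i j
    simp [Matrix.algebraMap_matrix_apply]
    split_ifs <;> simp
  · intro s
    obtain ⟨r, hr⟩ := H.scalχ s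
    refine ⟨r, ?_⟩
    rw [rtpRed_apply, hr]
    ext i j
    simp [Matrix.algebraMap_matrix_apply]
    split_ifs <;> simp

end Reduce

end Fermat.Agent.RT.P
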